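import Mathlib
import Fermat.Prelude.Def_ModularCurve_ArithmeticGalois
import Fermat.Agent.S24.PlacesPrincipal
import Fermat.Agent.S24.Degree

/-!
# Program G, package Open : every point of `J₀(N)(ℚ̄)` is fixed by an open subgroup of `G_ℚ`

* `gop_place_det` (abstract): in a function field with finite divisors of functions, a place `P` is
  determined by finitely many functions: any semilinear automorphism fixing them fixes `P`;
* `gop_elem_fixing` : every `f ∈ L · F₀ ⊆ L((q))` (`L / ℚ` algebraic) is fixed by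
  `Gal(L / E)`, `E / ℚ` finite;
* `gop_place_fixing`, `gop_divisor_fixing`, `gop_exists_fixing` : the same for places, divisors and
  classes of `F_ℚ̄(N)`.
-/

set_option autoImplicit false
set_option linter.unusedSectionVars false
set_option linter.unusedVariables false
set_option linter.style.haveILetI false

noncomputable section

namespace Fermat.Agent.G

open AlgebraicCurve ModularCurve IntermediateField Fermat.Agent.S24

section Abstract

variable {K F : Type*} [Field K] [Field F] [Algebra K F]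

/-- two distinct places are separated by a function. -/
theorem gop_exists_sep (P Q : Place K F) (h : P ≠ Q) :
    ∃ f : F, f ≠ 0 ∧ ¬ ((0 ≤ P.ord f) ↔ (0 ≤ Q.ord f)) := by
  have h1 : P.toValuationSubring ≠ Q.toValuationSubring := fun e => h (Place.ext e)
  have h2 : ∃ f : F, ¬ (f ∈ P.toValuationSubring ↔ f ∈ Q.toValuationSubring) := by
    by_contra hcon
    push Not at hcon
    exact h1 (SetLike.ext hcon)
  obtain ⟨f, hf⟩ := h2
  have hf0 : f ≠ 0 := by
    rintro rfl
    exact hf ⟨fun _ => Q.toValuationSubring.zero_mem, fun _ => P.toValuationSubring.zero_mem⟩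
  refine ⟨f, hf0, fun hiff => hf ?_⟩
  rw [PlaceOrd.mem_iff_ord_nonneg P hf0, PlaceOrd.mem_iff_ord_nonneg Q hf0]
  exact hiff

/-- A place is determined by finitely many functions. -/
theorem gop_place_det (hfin : ∀ f : F, f ≠ 0 → {v : Place K F | v.ord f ≠ 0}.Finite)
    (P : Place K F) :
    ∃ T : Finset F, ∀ g : SemilinearAut K F, (∀ f ∈ T, g • f = f) → g • P = P := by
  classical
  obtain ⟨π, hπ⟩ := IsDiscreteValuationRing.exists_irreducible P.toValuationSubring
  have hπ0 : (π : F) ≠ 0 := PlaceOrd.coe_irreducible_ne_zero P hπ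
  have hπ1 : P.ord (π : F) = 1 := P.ord_coe_irreducible hπ
  set Z : Finset (Place K F) := (hfin _ hπ0).toFinset with hZ
  -- separating functions
  have hsep : ∀ Q : Place K F, ∃ f : F, Q ≠ P → ¬ ((0 ≤ P.ord f) ↔ (0 ≤ Q.ord f)) := by
    intro Q
    by_cases hQ : Q = P
    · exact ⟨0, fun h => absurd hQ h⟩
    · obtain ⟨f, -, hf⟩ := gop_exists_sep P Q (fun e => hQ e.symm)
      exact ⟨f, fun _ => hf⟩
  choose s hs using hsep
  refine ⟨insert (π : F) (Z.image s), fun g hg => ?_⟩
  by_contra hne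
  have hπg : g • (π : F) = (π : F) := hg _ (Finset.mem_insert_self _ _)
  have h1 : (g • P).ord (π : F) = 1 := by
    have := SemilinearAut.ord_smul g P (π : F)
    rw [hπg] at this
    rw [this, hπ1]
  have hmem : g • P ∈ Z := by
    rw [hZ, Set.Finite.mem_toFinset, Set.mem_ofPred_eq, h1]
    exact one_ne_zero
  have hsg : g • s (g • P) = s (g • P) :=
    hg _ (Finset.mem_insert_of_mem (Finset.mem_image_of_mem s hmem))
  have h2 : (g • P).ord (s (g • P)) = P.ord (s (g • P)) := by
    have := SemilinearAut.ord_smul g P (s (g • P))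
    rw [hsg] at this
    exact this
  exact hs (g • P) hne (by rw [h2])

/-- a divisor is fixed if its support is fixed pointwise. -/
theorem gop_divisor_fixed (g : SemilinearAut K F) (D : Divisor K F)
    (h : ∀ v ∈ D.support, g • v = v) : g • D = D := by
  classical
  ext w
  rw [SemilinearAut.divisor_smul_apply]
  by_cases hw : w ∈ D.support
  · have : g⁻¹ • w = w := by
      have := h w hw
      rw [inv_smul_eq_iff, this]
    rw [this]
  · by_cases hw' : g⁻¹ • w ∈ D.support
    · exfalso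
      apply hw
      have := h _ hw'
      rw [smul_inv_smul] at this
      rw [this]
      exact hw'
    · rw [Finsupp.notMem_support_iff.mp hw, Finsupp.notMem_support_iff.mp hw']

/-- a class is fixed if the support of a representative is fixed pointwise. -/
theorem gop_pic0_fixed (g : SemilinearAut K F) (D : Divisor.degZero (K := K) (F := F))
    (h : ∀ v ∈ (D : Divisor K F).support, g • v = v) : g • Pic0.mk D = Pic0.mk D := by
  rw [SemilinearAut.pic0_smul_mk]
  congr 1
  exact Subtype.ext (by rw [SemilinearAut.coe_degZeroSMulHom]; exact gop_divisor_fixed g _ h)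

end Abstract

section Modular

variable {L : Type*} [Field L] [Algebra ℚ L] [Algebra.IsAlgebraic ℚ L]
variable (F₀ : IntermediateField ℚ (LaurentSeries ℚ))

theorem gop_mem_fixing_of_le {E₁ E₂ : IntermediateField ℚ L} (h : E₁ ≤ E₂) (σ : L ≃ₐ[ℚ] L)
    (hσ : σ ∈ E₂.fixingSubgroup) : σ ∈ E₁.fixingSubgroup := by
  rw [IntermediateField.mem_fixingSubgroup_iff] at hσ ⊢
  exact fun x hx => hσ x (h hx)

/-- every Laurent series of `L · F₀` has its coefficients fixed by an open subgroup. -/
theorem gop_series_fixing (y : LaurentSeries L) (hy : y ∈ laurentBaseChange L F₀) :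
    ∃ E : IntermediateField ℚ L, FiniteDimensional ℚ E ∧
      ∀ σ : L ≃ₐ[ℚ] L, σ ∈ E.fixingSubgroup → coeffMap (σ : L →+* L) y = y := by
  rw [mem_laurentBaseChange_iff] at hy
  induction hy using Subfield.closure_induction with
  | mem y hy =>
      rcases hy with ⟨a, rfl⟩ | ⟨z, hz, rfl⟩
      · refine ⟨ℚ⟮a⟯, IntermediateField.adjoin.finiteDimensional
          (Algebra.IsIntegral.isIntegral a), fun σ hσ => ?_⟩
        rw [coeffMap_algebraMap]
        congr 1
        rw [IntermediateField.mem_fixingSubgroup_iff] at hσ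
        exact hσ a (IntermediateField.mem_adjoin_simple_self ℚ a)
      · exact ⟨⊥, inferInstance, fun σ _ => coeffMap_coeffEmb σ z⟩
  | one => exact ⟨⊥, inferInstance, fun σ _ => map_one _⟩
  | add x y _ _ hx hy =>
      obtain ⟨E₁, hE₁, h₁⟩ := hx
      obtain ⟨E₂, hE₂, h₂⟩ := hy
      refine ⟨E₁ ⊔ E₂, IntermediateField.finiteDimensional_sup E₁ E₂, fun σ hσ => ?_⟩
      rw [map_add, h₁ σ (gop_mem_fixing_of_le le_sup_left σ hσ),
        h₂ σ (gop_mem_fixing_of_le le_sup_right σ hσ)]
  | neg x _ hx =>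
      obtain ⟨E₁, hE₁, h₁⟩ := hx
      exact ⟨E₁, hE₁, fun σ hσ => by rw [map_neg, h₁ σ hσ]⟩
  | inv x _ hx =>
      obtain ⟨E₁, hE₁, h₁⟩ := hx
      exact ⟨E₁, hE₁, fun σ hσ => by rw [map_inv₀, h₁ σ hσ]⟩
  | mul x y _ _ hx hy =>
      obtain ⟨E₁, hE₁, h₁⟩ := hx
      obtain ⟨E₂, hE₂, h₂⟩ := hy
      refine ⟨E₁ ⊔ E₂, IntermediateField.finiteDimensional_sup E₁ E₂, fun σ hσ => ?_⟩
      rw [map_mul, h₁ σ (gop_mem_fixing_of_le le_sup_left σ hσ),
        h₂ σ (gop_mem_fixing_of_le le_sup_right σ hσ)]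

/-- every element of `L · F₀` is fixed by an open subgroup. -/
theorem gop_elem_fixing (x : laurentBaseChange L F₀) :
    ∃ E : IntermediateField ℚ L, FiniteDimensional ℚ E ∧
      ∀ σ : L ≃ₐ[ℚ] L, σ ∈ E.fixingSubgroup → arithmeticGalois F₀ σ • x = x := by
  obtain ⟨E, hE, h⟩ := gop_series_fixing F₀ (x : LaurentSeries L) x.2
  exact ⟨E, hE, fun σ hσ => Subtype.ext (h σ hσ)⟩

/-- finitely many elements of `L · F₀` are fixed by a common open subgroup. -/
theorem gop_finset_fixing (T : Finset (laurentBaseChange L F₀)) :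
    ∃ E : IntermediateField ℚ L, FiniteDimensional ℚ E ∧
      ∀ σ : L ≃ₐ[ℚ] L, σ ∈ E.fixingSubgroup → ∀ x ∈ T, arithmeticGalois F₀ σ • x = x := by
  classical
  induction T using Finset.induction_on with
  | empty => exact ⟨⊥, inferInstance, fun σ _ x hx => absurd hx (Finset.notMem_empty x)⟩
  | insert a T _ ih =>
      obtain ⟨E₁, hE₁, h₁⟩ := ih
      obtain ⟨E₂, hE₂, h₂⟩ := gop_elem_fixing F₀ a
      refine ⟨E₁ ⊔ E₂, IntermediateField.finiteDimensional_sup E₁ E₂, fun σ hσ x hx => ?_⟩
      rcases Finset.mem_insert.mp hx with rfl | hx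
      · exact h₂ σ (gop_mem_fixing_of_le le_sup_right σ hσ)
      · exact h₁ σ (gop_mem_fixing_of_le le_sup_left σ hσ) x hx

/-- abstract form: places of `L · F₀` are fixed by open subgroups, if divisors of functions are
finite. -/
theorem gop_place_fixing_of_finite
    (hfin : ∀ f : laurentBaseChange L F₀, f ≠ 0 →
      {v : Place L (laurentBaseChange L F₀) | v.ord f ≠ 0}.Finite)
    (P : Place L (laurentBaseChange L F₀)) :
    ∃ E : IntermediateField ℚ L, FiniteDimensional ℚ E ∧
      ∀ σ : L ≃ₐ[ℚ] L, σ ∈ E.fixingSubgroup → arithmeticGalois F₀ σ • P = P := by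
  obtain ⟨T, hT⟩ := gop_place_det hfin P
  obtain ⟨E, hE, h⟩ := gop_finset_fixing F₀ T
  exact ⟨E, hE, fun σ hσ => hT _ (h σ hσ)⟩

theorem gop_places_fixing_of_finite
    (hfin : ∀ f : laurentBaseChange L F₀, f ≠ 0 →
      {v : Place L (laurentBaseChange L F₀) | v.ord f ≠ 0}.Finite)
    (S : Finset (Place L (laurentBaseChange L F₀))) :
    ∃ E : IntermediateField ℚ L, FiniteDimensional ℚ E ∧
      ∀ σ : L ≃ₐ[ℚ] L, σ ∈ E.fixingSubgroup → ∀ P ∈ S, arithmeticGalois F₀ σ • P = P := by
  classical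
  induction S using Finset.induction_on with
  | empty => exact ⟨⊥, inferInstance, fun σ _ x hx => absurd hx (Finset.notMem_empty x)⟩
  | insert a T _ ih =>
      obtain ⟨E₁, hE₁, h₁⟩ := ih
      obtain ⟨E₂, hE₂, h₂⟩ := gop_place_fixing_of_finite F₀ hfin a
      refine ⟨E₁ ⊔ E₂, IntermediateField.finiteDimensional_sup E₁ E₂, fun σ hσ x hx => ?_⟩
      rcases Finset.mem_insert.mp hx with rfl | hx
      · exact h₂ σ (gop_mem_fixing_of_le le_sup_right σ hσ)
      · exact h₁ σ (gop_mem_fixing_of_le le_sup_left σ hσ) x hx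

end Modular

section JZero

local notation "Qb" => AlgebraicClosure ℚ

variable (N : ℕ) [NeZero N]

theorem gop_isAlgebraic : Algebra.IsAlgebraic ℚ Qb := AlgebraicClosure.isAlgebraic ℚ

theorem gop_finite_ord (f : modularFunctionFieldBar N) (hf : f ≠ 0) :
    {v : Place Qb (modularFunctionFieldBar N) | v.ord f ≠ 0}.Finite :=
  (isSepGen_jBar N).finite_ord_ne_zero hf

/-- every place of `F_ℚ̄(N)` is fixed by an open subgroup of `G_ℚ`. -/
theorem gop_place_fixing (P : Place Qb (modularFunctionFieldBar N)) :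
    ∃ E : IntermediateField ℚ Qb, FiniteDimensional ℚ E ∧
      ∀ σ : Qb ≃ₐ[ℚ] Qb, σ ∈ E.fixingSubgroup →
        arithmeticGalois (modularFunctionFieldFull N) σ • P = P := by
  have := gop_isAlgebraic
  exact gop_place_fixing_of_finite (modularFunctionFieldFull N) (gop_finite_ord N) P

/-- every divisor of `F_ℚ̄(N)` is fixed by an open subgroup of `G_ℚ`. -/
theorem gop_divisor_fixing (D : Divisor Qb (modularFunctionFieldBar N)) :
    ∃ E : IntermediateField ℚ Qb, FiniteDimensional ℚ E ∧
      ∀ σ : Qb ≃ₐ[ℚ] Qb, σ ∈ E.fixingSubgroup →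
        arithmeticGalois (modularFunctionFieldFull N) σ • D = D := by
  have := gop_isAlgebraic
  obtain ⟨E, hE, h⟩ := gop_places_fixing_of_finite (modularFunctionFieldFull N)
    (gop_finite_ord N) D.support
  exact ⟨E, hE, fun σ hσ => gop_divisor_fixed _ D (h σ hσ)⟩

/-- EVERY POINT OF `J₀(N)(ℚ̄)` IS FIXED BY AN OPEN SUBGROUP OF `G_ℚ`. -/
theorem gop_exists_fixing (x : JZero N) :
    ∃ E : IntermediateField ℚ Qb, FiniteDimensional ℚ E ∧
      ∀ σ : Qb ≃ₐ[ℚ] Qb, σ ∈ E.fixingSubgroup → σ • x = x := by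
  have := gop_isAlgebraic
  obtain ⟨D, rfl⟩ := Pic0.mk_surjective x
  obtain ⟨E, hE, h⟩ := gop_places_fixing_of_finite (modularFunctionFieldFull N)
    (gop_finite_ord N) (D : Divisor Qb (modularFunctionFieldBar N)).support
  refine ⟨E, hE, fun σ hσ => ?_⟩
  rw [galois_smul_pic0_def]
  exact gop_pic0_fixed _ D (h σ hσ)

/-- finitely many points of `J₀(N)(ℚ̄)` are fixed by a common open subgroup. -/
theorem gop_finite_fixing (S : Set (JZero N)) (hS : S.Finite) :
    ∃ E : IntermediateField ℚ Qb, FiniteDimensional ℚ E ∧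
      ∀ σ : Qb ≃ₐ[ℚ] Qb, σ ∈ E.fixingSubgroup → ∀ x ∈ S, σ • x = x := by
  have := gop_isAlgebraic
  induction S, hS using Set.Finite.induction_on with
  | empty => exact ⟨⊥, inferInstance, fun σ _ x hx => absurd hx (Set.notMem_empty x)⟩
  | @insert a T _ _ ih =>
      obtain ⟨E₁, hE₁, h₁⟩ := ih
      obtain ⟨E₂, hE₂, h₂⟩ := gop_exists_fixing N a
      refine ⟨E₁ ⊔ E₂, IntermediateField.finiteDimensional_sup E₁ E₂, fun σ hσ x hx => ?_⟩
      rcases Set.mem_insert_iff.mp hx with rfl | hx
      · exact h₂ σ (gop_mem_fixing_of_le le_sup_right σ hσ)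
      · exact h₁ σ (gop_mem_fixing_of_le le_sup_left σ hσ) x hx

/-- the same with `E / ℚ` finite GALOIS (normal). -/
theorem gop_finite_fixing_normal (S : Set (JZero N)) (hS : S.Finite) :
    ∃ E : IntermediateField ℚ Qb, FiniteDimensional ℚ E ∧ Normal ℚ E ∧
      ∀ σ : Qb ≃ₐ[ℚ] Qb, σ ∈ E.fixingSubgroup → ∀ x ∈ S, σ • x = x := by
  have := gop_isAlgebraic
  obtain ⟨E, hE, h⟩ := gop_finite_fixing N S hS
  have hcl : IsAlgClosure ℚ Qb := AlgebraicClosure.instIsAlgClosure ℚ
  have hnorm : Normal ℚ Qb := IsAlgClosure.normal ℚ Qb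
  refine ⟨IntermediateField.normalClosure ℚ E Qb, normalClosure.is_finiteDimensional ℚ E Qb,
    normalClosure.normal ℚ E Qb, fun σ hσ x hx => ?_⟩
  exact h σ (gop_mem_fixing_of_le (IntermediateField.le_normalClosure E) σ hσ) x hx

end JZero

end Fermat.Agent.G
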